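import Fermat.Agent.S59.LoSqC.H34.NodePureReg
import Fermat.Agent.Ribet.H912.TameCore
import Fermat.Agent.Ribet.H644.CuspPurityQGood
import Fermat.Agent.Ribet.H158.WallQSlope
import Fermat.Agent.S36.H803.R3Spec

/-!
# Row S59, cell (C) LO-SQ, leaf W-COUNT / NODE-J, part 2 (helper34):
# slope `0` modulo `m`  ⟹  `FinGenQ`   (level `q M`, UNIT-FREE, any exponent `m`, `p = 3` allowed)

Level `N = M * q`, `q ∤ M`, `A` a place of `ℚ̄` over `q`, `E` a good level (`A2.GoodField A E`),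
`w` a uniformiser of `R_E`, `B = chartAlg (x)` the finite chart, `cf : SSChart w B` any semistable
structure whose components are cut out by `V∞` and `V₀ = V∞ ∘ W` (`S35.G.CutBy`).

* `NodeRegAt A E M q w`       : the component `C∞` is LOCALLY PRINCIPAL at every node
                               (= first half of the conclusion of `S36.H803.Th1Statement`);
* `SlopeZeroAt A E M q w m y` : the two vertical valuations of `y ∈ F_E(Mq)` differ by a multiple
                               of `m`;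
* `pure_of_slopeZero_h34`     : `NodeRegAt` + `m ∣ div y` + `SlopeZeroAt` ⟹ `y` is pure (exponent
                               `m`) at EVERY closed point of the special fibre of the finite chart
                               (exactly the hypothesis of `H472.nodeGenOfPure`);
* `finGenQ_of_slopeZero_h34`  : J-form: a Kummer generator `G'` (over `ℚ̄`) of a class `x` whose
                               expansion is the base change of such a `y` satisfies
                               `H158.WallQ.FinGenQ m q M A G'`; so `x ∈ finSetQ m q M A`.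

Inputs from main: `S36.H987.pure_regular_abs987` (via `NodePureReg`), the model
`S35.G.H862.model`, DICT `H472.nodeGenOfPure`, CUSP `H644.cuspPurityAux`.
-/

set_option autoImplicit false
set_option linter.style.haveILetI false
set_option linter.unusedSectionVars false
set_option linter.unusedVariables false
set_option synthInstance.maxHeartbeats 400000
set_option maxHeartbeats 1600000

noncomputable section

namespace Fermat.Agent.S59.LoSqC.H34

open ModularCurve AlgebraicCurve HahnSeries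
open Fermat.Agent.A2 Fermat.Agent.A2.Alg
open Fermat.Agent.S24 Fermat.Agent.A2.H708
open Fermat.Agent.Ribet.H884 Fermat.Agent.Ribet.H704
open Fermat.Agent.A2.Alg.H754 (LocU)

section Level

variable (A : ValuationSubring Qb) (E : IntermediateField ℚ Qb) (M q : ℕ) [NeZero M] [NeZero q]

/-- **Regularity at the nodes** of the finite chart of level `M q`: for every semistable
structure `cf` on the finite chart whose components are cut out by `V∞` and `V₀ = V∞ ∘ W`, the
component `cf.p₁` is locally principal at every node.  (First half of the conclusion of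
`S36.H803.Th1Statement`; see `nodeRegAt_of_th1_h34`.) -/
def NodeRegAt (w : Mod.RE A E) : Prop :=
  ∀ (cf : SSChart w (Mod.chartAlg A E (M * q) (Mod.xE E M q)))
    (V : ValuationSubring (Mod.FE E (M * q))) (W : Mod.FE E (M * q) ≃ₐ[E] Mod.FE E (M * q)),
    Mod.IsVinf A E (M * q) V → Mod.IsFricke E (M * q) W →
    Fermat.Agent.S35.G.CutBy w (Mod.chartAlg A E (M * q) (Mod.xE E M q)) cf V
      (V.comap (W : Mod.FE E (M * q) →+* Mod.FE E (M * q))) →
    ∀ n : Ideal (Mod.chartAlg A E (M * q) (Mod.xE E M q)), n.IsMaximal → cf.p₁ ≤ n → cf.p₂ ≤ n →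
      ∃ x₁ ∈ cf.p₁, ∀ a ∈ cf.p₁,
        ∃ g : Mod.chartAlg A E (M * q) (Mod.xE E M q), g ∉ n ∧ ∃ b, g * a = x₁ * b

/-- **Slope `0` modulo `m`**: the valuations of `y` along the two components of the finite chart
differ by a multiple of `m`. -/
def SlopeZeroAt (w : Mod.RE A E) (m : ℕ) (y : Mod.FE E (M * q)) : Prop :=
  ∀ (cf : SSChart w (Mod.chartAlg A E (M * q) (Mod.xE E M q)))
    (V : ValuationSubring (Mod.FE E (M * q))) (W : Mod.FE E (M * q) ≃ₐ[E] Mod.FE E (M * q)),
    Mod.IsVinf A E (M * q) V → Mod.IsFricke E (M * q) W →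
    Fermat.Agent.S35.G.CutBy w (Mod.chartAlg A E (M * q) (Mod.xE E M q)) cf V
      (V.comap (W : Mod.FE E (M * q) →+* Mod.FE E (M * q))) →
    ∀ v₁ v₂ : ℤ,
      I6.ValAt (Mod.FE E (M * q)) cf.p₁
        (algebraMap (Mod.RE A E) (Mod.chartAlg A E (M * q) (Mod.xE E M q)) w) y v₁ →
      I6.ValAt (Mod.FE E (M * q)) cf.p₂
        (algebraMap (Mod.RE A E) (Mod.chartAlg A E (M * q) (Mod.xE E M q)) w) y v₂ →
      (m : ℤ) ∣ v₂ - v₁

/-- `NodeRegAt` from the conclusion of `S36.H803.Th1Statement`. -/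
theorem nodeRegAt_of_th1_h34 (w : Mod.RE A E)
    (h : ∀ p₁ p₂ : Ideal (Fermat.Agent.S36.H803.Bfin A E M q),
      Fermat.Agent.S36.H803.IsComponents A E M q w p₁ p₂ →
      ∀ n : Ideal (Fermat.Agent.S36.H803.Bfin A E M q),
        Fermat.Agent.S36.H803.IsNode A E M q p₁ p₂ n →
        (∃ x₁ ∈ p₁, ∀ a ∈ p₁, ∃ g : Fermat.Agent.S36.H803.Bfin A E M q, g ∉ n ∧
          ∃ b, g * a = x₁ * b) ∧
        (∃ x₂ ∈ p₂, ∀ a ∈ p₂, ∃ g : Fermat.Agent.S36.H803.Bfin A E M q, g ∉ n ∧
          ∃ b, g * a = x₂ * b)) :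
    NodeRegAt A E M q w := by
  intro cf V W hV hW hcf n hn h₁ h₂
  exact (h cf.p₁ cf.p₂ ⟨V, W, hV, hW, fun b => hcf.cut₁ b, fun b => hcf.cut₂ b⟩ n
    ⟨hn, h₁, h₂⟩).1

/-- **PURITY of a slope-zero function** at every closed point of the special fibre of the finite
chart of level `M q` (nodes: regularity `NodeRegAt`; smooth points: the component through the
point is locally generated by `w`). -/
theorem pure_of_slopeZero_h34 (hq : q.Prime) (hqM : ¬ q ∣ M)
    (haux : Fermat.Agent.S35.G.HasAux M q) (hE : GoodField A E)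
    (w : Mod.RE A E) (hS : Mod.Setting A E M q w) (hreg : NodeRegAt A E M q w)
    (m : ℕ) (hm : 0 < m) (y : Mod.FE E (M * q)) (hy : y ≠ 0) (hdiv : DivisibleDiv E m y)
    (hslope : SlopeZeroAt A E M q w m y) :
    ∀ n : Ideal (Mod.chartAlg A E (M * q) (Mod.xE E M q)), n.IsMaximal →
      algebraMap (Mod.RE A E) (Mod.chartAlg A E (M * q) (Mod.xE E M q)) w ∈ n →
      ∃ (d : Mod.FE E (M * q)) (a : ℤ), d ≠ 0 ∧
        Alg.LocUnit (Mod.chartAlg A E (M * q) (Mod.xE E M q)) n
          (y * Mod.cE A E (M * q) w ^ a * d ^ m) := by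
  haveI : IsDiscreteValuationRing ↥(RE A E) := hE.dvr
  haveI : HenselianLocalRing ↥(RE A E) := hE.henselian
  haveI : IsAlgClosed (IsLocalRing.ResidueField ↥(RE A E)) := hE.algClosed
  have hw : Irreducible w := hS.unif
  obtain ⟨V, W, VM, hV, hW, hVM, hg1, hg2, hDeg, sf, si, cf, ci, hcf, hci⟩ :=
    Fermat.Agent.S35.G.H862.model A E M q w hS hE haux
  obtain ⟨hx, hfr, hconst⟩ := hDeg hq hqM
  have hpos : 0 < Module.finrank
      (IntermediateField.adjoin E ({Mod.xE E M q} : Set (Mod.FE E (M * q))))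
      (Mod.FE E (M * q)) := by
    rw [hfr]
    have h1 := Mod.dedekindPsi_pos_of_ne_zero M (NeZero.ne M)
    positivity
  have hfin : FiniteDimensional
      (IntermediateField.adjoin E ({Mod.xE E M q} : Set (Mod.FE E (M * q))))
      (Mod.FE E (M * q)) := Module.finite_of_finrank_pos hpos
  have hCf : ChartCtx E w (Mod.xE E M q) (Mod.chartAlg A E (M * q) (Mod.xE E M q)) :=
    ⟨hw, hx, hfin, hconst, fun _ => Iff.rfl⟩
  obtain ⟨hnoeth, hic, hfrac⟩ := H34.chart_instances' w (Mod.xE E M q) (Mod.chartAlg A E (M * q) (Mod.xE E M q)) hCf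
  haveI := hnoeth
  haveI := hic
  haveI := hfrac
  haveI hp₁ : cf.p₁.IsPrime := cf.prime₁
  haveI hp₂ : cf.p₂.IsPrime := cf.prime₂
  haveI hn₁ : IsIntegrallyClosed ((Mod.chartAlg A E (M * q) (Mod.xE E M q)) ⧸ cf.p₁) := cf.normal₁
  haveI hn₂ : IsIntegrallyClosed ((Mod.chartAlg A E (M * q) (Mod.xE E M q)) ⧸ cf.p₂) := cf.normal₂
  have hwmem : algebraMap (Mod.RE A E) (Mod.chartAlg A E (M * q) (Mod.xE E M q)) w ∈ cf.p₁ ⊓ cf.p₂ := by
    rw [cf.inf_eq]
    exact Ideal.mem_span_singleton_self _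
  have hD₁ : IsDedekindDomain ((Mod.chartAlg A E (M * q) (Mod.xE E M q)) ⧸ cf.p₁) :=
    Fermat.Agent.A2.Alg.H609.isDedekindDomain_quotient_chart w (Mod.xE E M q) (Mod.chartAlg A E (M * q) (Mod.xE E M q)) hCf cf.p₁ hwmem.1
  have hD₂ : IsDedekindDomain ((Mod.chartAlg A E (M * q) (Mod.xE E M q)) ⧸ cf.p₂) :=
    Fermat.Agent.A2.Alg.H609.isDedekindDomain_quotient_chart w (Mod.xE E M q) (Mod.chartAlg A E (M * q) (Mod.xE E M q)) hCf cf.p₂ hwmem.2
  have hw0 : algebraMap (Mod.RE A E) (Mod.chartAlg A E (M * q) (Mod.xE E M q)) w ≠ 0 :=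
    Fermat.Agent.A2.H609.ne_zero_of_inf_eq_span cf.p₁ cf.p₂ cf.inf_eq cf.not_le₁₂ cf.not_le₂₁
  have hinf' : cf.p₂ ⊓ cf.p₁ = Ideal.span {algebraMap (Mod.RE A E) (Mod.chartAlg A E (M * q) (Mod.xE E M q)) w} := by
    rw [inf_comm]
    exact cf.inf_eq
  -- the valuations
  obtain ⟨v₁, v₂, hv₁, hv₂⟩ := Fermat.Agent.Ribet.H868.exists_valAt_chart (E := E) w
    (Mod.xE E M q) (Mod.chartAlg A E (M * q) (Mod.xE E M q)) hCf cf y hy
  have hmv : (m : ℤ) ∣ v₂ - v₁ := hslope cf V W hV hW hcf v₁ v₂ hv₁ hv₂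
  have hmv' : (m : ℤ) ∣ v₁ - v₂ := by
    have := (Int.dvd_neg).2 hmv
    rwa [neg_sub] at this
  have hhor := Fermat.Agent.A2.Alg.H609.hdiv_of_divisibleDiv w hw (Mod.chartAlg A E (M * q) (Mod.xE E M q)) m y hdiv
  intro n hn hwn
  have hnp : n.IsPrime := hn.isPrime
  have hor : cf.p₁ ≤ n ∨ cf.p₂ ≤ n := by
    have hle : cf.p₁ * cf.p₂ ≤ n := by
      refine le_trans Ideal.mul_le_inf ?_
      rw [cf.inf_eq, Ideal.span_le, Set.singleton_subset_iff]
      exact hwn
    exact (Ideal.IsPrime.mul_le hnp).1 hle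
  -- local generator of a component at a point which is not on the other one
  have hsmooth : ∀ (p p' : Ideal (Mod.chartAlg A E (M * q) (Mod.xE E M q))), p ⊓ p' = Ideal.span {algebraMap (Mod.RE A E) (Mod.chartAlg A E (M * q) (Mod.xE E M q)) w} →
      ¬ p' ≤ n → ∀ a ∈ p, ∃ g : (Mod.chartAlg A E (M * q) (Mod.xE E M q)), g ∉ n ∧ ∃ c : (Mod.chartAlg A E (M * q) (Mod.xE E M q)), g * a = algebraMap (Mod.RE A E) (Mod.chartAlg A E (M * q) (Mod.xE E M q)) w * c := by
    intro p p' hinf hp'n a ha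
    obtain ⟨g, hgp', hgn⟩ := SetLike.not_le_iff_exists.1 hp'n
    refine ⟨g, hgn, ?_⟩
    have h : g * a ∈ p ⊓ p' := ⟨p.mul_mem_left g ha, p'.mul_mem_right a hgp'⟩
    rw [hinf, Ideal.mem_span_singleton] at h
    exact h
  rcases hor with h₁ | h₂
  · -- `n` on the first component
    have hgen : ∃ x₁ ∈ cf.p₁, ∀ a ∈ cf.p₁, ∃ g : (Mod.chartAlg A E (M * q) (Mod.xE E M q)), g ∉ n ∧ ∃ c : (Mod.chartAlg A E (M * q) (Mod.xE E M q)), g * a = x₁ * c := by
      by_cases h₂ : cf.p₂ ≤ n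
      · exact hreg cf V W hV hW hcf n hn h₁ h₂
      · exact ⟨_, hwmem.1, hsmooth cf.p₁ cf.p₂ cf.inf_eq h₂⟩
    obtain ⟨x₁, hx₁, hgen⟩ := hgen
    obtain ⟨d, hd0, a, b, ha, hb, hab⟩ :=
      pure_node_of_principal_h34 (F := Mod.FE E (M * q)) hw0 cf.p₁ cf.p₂ cf.inf_eq hD₁ hm hy hhor
        hv₁ hv₂ hmv n hn h₁ x₁ hx₁ hgen
    exact ⟨d, -v₁, hd0, a, b, ha, hb, hab⟩
  · -- `n` on the second component only (or both: use the second)
    by_cases h₁ : cf.p₁ ≤ n
    · obtain ⟨x₁, hx₁, hgen⟩ := hreg cf V W hV hW hcf n hn h₁ h₂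
      obtain ⟨d, hd0, a, b, ha, hb, hab⟩ :=
        pure_node_of_principal_h34 (F := Mod.FE E (M * q)) hw0 cf.p₁ cf.p₂ cf.inf_eq hD₁ hm hy
          hhor hv₁ hv₂ hmv n hn h₁ x₁ hx₁ hgen
      exact ⟨d, -v₁, hd0, a, b, ha, hb, hab⟩
    · obtain ⟨d, hd0, a, b, ha, hb, hab⟩ :=
        pure_node_of_principal_h34 (F := Mod.FE E (M * q)) hw0 cf.p₂ cf.p₁ hinf' hD₂ hm hy hhor
          hv₂ hv₁ hmv' n hn h₂ _ hwmem.2 (hsmooth cf.p₂ cf.p₁ hinf' h₁)
      exact ⟨d, -v₂, hd0, a, b, ha, hb, hab⟩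

end Level

section JForm

variable (q M m : ℕ) [NeZero M] [NeZero q] [NeZero (q * M)]

/-- **FIN-OF-SLOPE (J-form).**  A Kummer generator `G'` of a class `x ∈ J₀(qM)[m]` whose expansion
is the base change of an `E`-rational function `y` of slope `0` modulo `m` has both reductions in
`k(X₀(M))` with `m`-divisible divisors: `FinGenQ m q M A G'`. -/
theorem finGenQ_of_slopeZero_h34 (hq : q.Prime) (hqM : ¬ q ∣ M)
    (haux : Fermat.Agent.S35.G.HasAux M q) (hm : 0 < m)
    (A : ValuationSubring Kbar) (hA : A.LiesOverPrime q)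
    (E : IntermediateField ℚ Kbar) (hE : GoodField A E)
    (w : Mod.RE A E) (hS : Mod.Setting A E M q w) (hreg : NodeRegAt A E M q w)
    (y : Mod.FE E (M * q)) (hy : y ≠ 0) (hdiv : DivisibleDiv E m y)
    (hslope : SlopeZeroAt A E M q w m y)
    (G' : FF (q * M))
    (hG' : (G' : LaurentSeries Kbar) = coeffMap (algebraMap E Kbar) (y : LaurentSeries E))
    (x : JZero (q * M)) (hK : IsKummerGen (q * M) m G' x) :
    Fermat.Agent.Ribet.H158.WallQ.FinGenQ m q M A G' := by
  have hpure := pure_of_slopeZero_h34 A E M q hq hqM haux hE w hS hreg m hm y hy hdiv hslope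
  have hNG := Fermat.Agent.Ribet.H472.nodeGenOfPure hS hE m y G' hy hG' hpure
  exact Fermat.Agent.Ribet.H644.cuspPurityAux m q M hq hqM haux hm A hA G' x hK hNG

/-- … hence `x ∈ finSetQ m q M A`. -/
theorem mem_finSetQ_of_slopeZero_h34 (hq : q.Prime) (hqM : ¬ q ∣ M)
    (haux : Fermat.Agent.S35.G.HasAux M q) (hm : 0 < m)
    (A : ValuationSubring Kbar) (hA : A.LiesOverPrime q)
    (E : IntermediateField ℚ Kbar) (hE : GoodField A E)
    (w : Mod.RE A E) (hS : Mod.Setting A E M q w) (hreg : NodeRegAt A E M q w)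
    (y : Mod.FE E (M * q)) (hy : y ≠ 0) (hdiv : DivisibleDiv E m y)
    (hslope : SlopeZeroAt A E M q w m y)
    (G' : FF (q * M))
    (hG' : (G' : LaurentSeries Kbar) = coeffMap (algebraMap E Kbar) (y : LaurentSeries E))
    (x : JZero (q * M)) (hK : IsKummerGen (q * M) m G' x) :
    x ∈ Fermat.Agent.Ribet.H158.WallQ.finSetQ m q M A :=
  ⟨G', hK, finGenQ_of_slopeZero_h34 q M m hq hqM haux hm A hA E hE w hS hreg y hy hdiv hslope
    G' hG' x hK⟩

end JForm

end Fermat.Agent.S59.LoSqC.H34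

end
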