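import Fermat.Agent.S36.H987.RegPure987
import Fermat.Agent.S18.H438.Front.HeightOne
import Fermat.Agent.Ribet.H704.I6Core
import Fermat.Agent.Ribet.H704.I6Inst
import Fermat.Agent.Ribet.H644.SmoothDiv

/-!
# Row S59, cell (C) LO-SQ, leaf W-COUNT / NODE-J, part 1 (helper34):
# purity at a REGULAR node of a semistable chart, UNIT-FREE, any exponent `m`

`B` a noetherian normal domain with fraction field `F`, `w ∈ B`, two components `p₁`, `p₂`
(`p₁ ⊓ p₂ = (w)`, incomparable), `f ∈ Fˣ` horizontally `m`-divisible (`I6.HorDivVal`), with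
valuations `v₁`, `v₂` along the two components (`I6.ValAt`) and **slope `0` modulo `m`**:
`m ∣ v₂ - v₁`.

* `divisibleDivisor_of_valAt_h34` : `f · w ^ (-v₁)` has an `m`-divisible divisor at EVERY
  height-one prime of `B` (`S18.H754.DivisibleDivisor`);
* `pure_node_of_principal_h34`    : at a closed point `n ⊇ p₁` where `p₁` is LOCALLY PRINCIPAL
  (the conclusion of `S36.H803.Th1Statement`, thickness one) `f · w ^ (-v₁) · d ^ m` is a unit of
  `B_n` for some `d ∈ Fˣ`.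

No modular unit, no unit pair, no coprimality with `12`: this is the purity input at the
supersingular points for `p = 3` as well.  Proof: `S36.H987.pure_regular_abs987` (regular local
ring of dimension two is factorial).
-/

set_option autoImplicit false
set_option linter.style.haveILetI false
set_option linter.unusedSectionVars false
set_option linter.unusedVariables false

noncomputable section

namespace Fermat.Agent.S59.LoSqC.H34

open Fermat.Agent.Ribet.H704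
open Fermat.Agent.S18.H754 (DivisibleDivisor)
open Fermat.Agent.A2.Alg.H754 (LocU locU_iff_of_valuationSubring)

section Abs

variable {B F : Type*} [CommRing B] [IsDomain B] [Field F] [Algebra B F] [IsFractionRing B F]
variable [IsNoetherianRing B] [IsIntegrallyClosed B]

/-- A vertical height-one prime is one of the two components. -/
theorem eq_component_of_height_one_h34 {w : B} (hw0 : w ≠ 0) (p₁ p₂ : Ideal B)
    [hp₁ : p₁.IsPrime] [hp₂ : p₂.IsPrime] (hinf : p₁ ⊓ p₂ = Ideal.span {w})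
    (𝔭 : Ideal B) [h𝔭 : 𝔭.IsPrime] (hht : 𝔭.height = 1) (hw𝔭 : w ∈ 𝔭) :
    𝔭 = p₁ ∨ 𝔭 = p₂ := by
  have hw₁ : w ∈ p₁ := by
    have : w ∈ p₁ ⊓ p₂ := hinf ▸ Ideal.mem_span_singleton_self w
    exact this.1
  have hw₂ : w ∈ p₂ := by
    have : w ∈ p₁ ⊓ p₂ := hinf ▸ Ideal.mem_span_singleton_self w
    exact this.2
  have hle : p₁ * p₂ ≤ 𝔭 := by
    refine le_trans Ideal.mul_le_inf ?_
    rw [hinf, Ideal.span_le, Set.singleton_subset_iff]
    exact hw𝔭
  have key : ∀ q : Ideal B, q.IsPrime → w ∈ q → q ≤ 𝔭 → 𝔭 = q := by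
    intro q hq hwq hq𝔭
    haveI := hq
    haveI : q.FiniteHeight := Ideal.finiteHeight_of_isNoetherianRing q
    have hq0 : q ≠ ⊥ := by
      intro h0
      rw [h0, Ideal.mem_bot] at hwq
      exact hw0 hwq
    have : q = 𝔭 := by
      refine Ideal.eq_of_le_of_height_le (I := q) (J := 𝔭) hq𝔭 ?_
      rw [hht, Order.one_le_iff_pos, pos_iff_ne_zero, Ne, Ideal.height_eq_zero_iff_eq_bot]
      exact hq0
    exact this.symm
  rcases (Ideal.IsPrime.mul_le h𝔭).1 hle with h | h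
  · exact Or.inl (key p₁ hp₁ hw₁ h)
  · exact Or.inr (key p₂ hp₂ hw₂ h)

/-- **Divisor of a slope-zero function**: `f` horizontally `m`-divisible with valuations `v₁`,
`v₂` along the two components, `m ∣ v₂ - v₁`; then `f · w ^ (-v₁)` has an `m`-divisible divisor
at every height-one prime of `B`. -/
theorem divisibleDivisor_of_valAt_h34 {w : B} (hw0 : w ≠ 0) (p₁ p₂ : Ideal B)
    [hp₁ : p₁.IsPrime] [hp₂ : p₂.IsPrime] (hinf : p₁ ⊓ p₂ = Ideal.span {w})
    {m : ℕ} (hm : 0 < m) {f : F} (hf : f ≠ 0) (hdiv : I6.HorDivVal F w m f)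
    {v₁ v₂ : ℤ} (hv₁ : I6.ValAt F p₁ w f v₁) (hv₂ : I6.ValAt F p₂ w f v₂)
    (hmv : (m : ℤ) ∣ v₂ - v₁) :
    DivisibleDivisor B m (f * (algebraMap B F w) ^ (-v₁)) := by
  classical
  have hinj : Function.Injective (algebraMap B F) := IsFractionRing.injective B F
  have hwF : algebraMap B F w ≠ 0 := fun h => hw0 (hinj (by rw [h, map_zero]))
  intro 𝔭 h𝔭 hht
  haveI := h𝔭
  by_cases hw𝔭 : w ∈ 𝔭
  · rcases eq_component_of_height_one_h34 hw0 p₁ p₂ hinf 𝔭 hht hw𝔭 with rfl | rfl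
    · obtain ⟨a, b, ha, hb, hab⟩ := hv₁
      refine ⟨1, a, b, ha, hb, ?_⟩
      rw [one_pow, mul_one, mul_right_comm, hab, mul_right_comm, ← zpow_add₀ hwF,
        add_neg_cancel, zpow_zero, one_mul]
    · obtain ⟨a, b, ha, hb, hab⟩ := hv₂
      obtain ⟨k, hk⟩ := hmv
      refine ⟨(algebraMap B F w) ^ (-k), a, b, ha, hb, ?_⟩
      have e : f * (algebraMap B F w) ^ (-v₁) * ((algebraMap B F w) ^ (-k)) ^ m *
          algebraMap B F b =
          (f * algebraMap B F b) * ((algebraMap B F w) ^ (-v₁) *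
            ((algebraMap B F w) ^ (-k)) ^ m) := by ring
      rw [e, hab, ← zpow_natCast ((algebraMap B F w) ^ (-k)) m, ← zpow_mul, ← zpow_add₀ hwF,
        mul_right_comm, ← zpow_add₀ hwF]
      have e2 : v₂ + (-v₁ + -k * (m : ℤ)) = 0 := by
        have : v₂ = v₁ + (m : ℤ) * k := by linarith
        rw [this]
        ring
      rw [e2, zpow_zero, one_mul]
  · -- horizontal prime
    obtain ⟨W, hdvr, hW⟩ := Fermat.Agent.S18.H438.exists_dvr_of_height_one (F := F) 𝔭 hht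
    have h1𝔭 : (1 : B) ∉ 𝔭 := fun h => h𝔭.ne_top ((Ideal.eq_top_iff_one _).2 h)
    have hBW : ∀ b : B, algebraMap B F b ∈ W := fun b =>
      (hW _).2 ⟨b, 1, h1𝔭, by rw [map_one, mul_one]⟩
    have hwW : (algebraMap B F w)⁻¹ ∈ W :=
      (hW _).2 ⟨1, w, hw𝔭, by rw [map_one, inv_mul_cancel₀ hwF]⟩
    obtain ⟨h, u₀, hu₀, hu₀', hfh⟩ := hdiv W hdvr hBW hwW
    have hu₀0 : u₀ ≠ 0 := by
      rintro rfl
      rw [zero_mul] at hfh
      exact hf hfh
    have hh0 : h ≠ 0 := by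
      rintro rfl
      rw [zero_pow hm.ne', mul_zero] at hfh
      exact hf hfh
    have hU₀ : LocU 𝔭 u₀ := (locU_iff_of_valuationSubring 𝔭 W hW hu₀0).2 ⟨hu₀, hu₀'⟩
    have hUw : LocU 𝔭 ((algebraMap B F w) ^ (-v₁)) :=
      (LocU.of_notMem (F := F) hw𝔭 h1𝔭).zpow (-v₁)
    obtain ⟨a, s, ha, hs, has⟩ := hU₀.mul hUw
    refine ⟨h⁻¹, a, s, ha, hs, ?_⟩
    rw [← has, hfh, inv_pow]
    have hhm : h ^ m ≠ 0 := pow_ne_zero _ hh0
    field_simp

/-- **Purity at a regular node, abstract form.**  `n` a closed point on `p₁`, `p₁` locally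
principal at `n` (generated by `x₁`), `B ⧸ p₁` Dedekind, `f` horizontally `m`-divisible of slope
`0` modulo `m`.  Then `f · w ^ (-v₁) · d ^ m` is a unit at `n` for some `d ∈ Fˣ`. -/
theorem pure_node_of_principal_h34 {w : B} (hw0 : w ≠ 0) (p₁ p₂ : Ideal B)
    [hp₁ : p₁.IsPrime] [hp₂ : p₂.IsPrime] (hinf : p₁ ⊓ p₂ = Ideal.span {w})
    (hD : IsDedekindDomain (B ⧸ p₁))
    {m : ℕ} (hm : 0 < m) {f : F} (hf : f ≠ 0) (hdiv : I6.HorDivVal F w m f)
    {v₁ v₂ : ℤ} (hv₁ : I6.ValAt F p₁ w f v₁) (hv₂ : I6.ValAt F p₂ w f v₂)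
    (hmv : (m : ℤ) ∣ v₂ - v₁)
    (n : Ideal B) (hn : n.IsMaximal) (h₁ : p₁ ≤ n)
    (x₁ : B) (hx₁ : x₁ ∈ p₁) (hgen : ∀ a ∈ p₁, ∃ g : B, g ∉ n ∧ ∃ c : B, g * a = x₁ * c) :
    ∃ d : F, d ≠ 0 ∧ LocU n (f * (algebraMap B F w) ^ (-v₁) * d ^ m) := by
  have hinj : Function.Injective (algebraMap B F) := IsFractionRing.injective B F
  have hwF : algebraMap B F w ≠ 0 := fun h => hw0 (hinj (by rw [h, map_zero]))
  have hw₁ : w ∈ p₁ := by
    have : w ∈ p₁ ⊓ p₂ := hinf ▸ Ideal.mem_span_singleton_self w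
    exact this.1
  have hx₁0 : x₁ ≠ 0 := by
    rintro rfl
    obtain ⟨g, hg, c, hgc⟩ := hgen w hw₁
    rw [zero_mul] at hgc
    rcases mul_eq_zero.1 hgc with h | h
    · exact hg (h ▸ n.zero_mem)
    · exact hw0 h
  have hu : f * (algebraMap B F w) ^ (-v₁) ≠ 0 := mul_ne_zero hf (zpow_ne_zero _ hwF)
  have hDD := divisibleDivisor_of_valAt_h34 hw0 p₁ p₂ hinf hm hf hdiv hv₁ hv₂ hmv
  exact Fermat.Agent.S36.H987.pure_regular_abs987 x₁ hx₁0 p₁ n hn h₁ hx₁ hgen hD m hm _ hu hDD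

end Abs

end Fermat.Agent.S59.LoSqC.H34

end
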