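import Fermat.Agent.S59.LoSqC.H34.FinOfSlope
import Fermat.Agent.Ribet.H868.CoreOutQ
import Fermat.Agent.Ribet.H884.SlopeClosed

/-!
# Row S59, cell (C) LO-SQ, leaf W-COUNT / NODE-J, part 3 (helper34):
# NODE-REL in J-form, EVERY exponent `m` (`p = 3` allowed), from the E-form

Level `N = q M`, `q ∤ M` (`S35.G.HasAux M q`), `A` a place of `ℚ̄` over `q`, `I = I_A` the inertia
group, `E = ℚ̄^I` the inertia field (a good level with uniformiser `q`).

Hypotheses (both are theorems OFF-MAIN; they are HYPOTHESES here, so this file imports main only):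

* `NodeRegAt A E M q w`      : regularity at the nodes (first half of the conclusion of
                               `S36.H803.Th1Statement`, see `FinOfSlope.nodeRegAt_of_th1_h34`);
* `NodeRelEAt A E M q w m s` : NODE-REL in E-form (VERBATIM the conclusion of
                               `S59.LoSqC.H862.nodeRelE`, with `s` for `(q - 1) ψ(M)`):
                               `m ∣ s · (v₁ - v₂)` for every `f ∈ F_E^×` with `m ∣ div f`.

Results (J-form, same shape as `H955.nodeRel_nsmul_h955` / `nodeRel_colour_h955`, but for ALL `m`):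

* `nodeRelJ_nsmul_h34`  : `x ∈ J₀(qM)[m]^I  ⟹  s • x ∈ finSetQ m q M A` (hence `∈ finPartQ`);
* `nodeRelJ_colour_h34` : there is `τ : J₀(qM) → ℕ` with `τ x < s` on `J₀(qM)[m]^I` and
                          `τ x = τ x' ⟹ x - x' ∈ finSetQ m q M A`
                          (so `#(J[m]^I / 𝓕 ∩ J[m]^I) ≤ s`, `s` independent of `m`).

Tools: `ssChart_swap_h34` (the two components of a semistable chart are determined up to order),
`slopeZeroAt_of_chart_h34` (slope `0` on ONE chart structure ⟹ `SlopeZeroAt`),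
`chartCtx_fin_h34`, `exists_chart_fin_h34`.
-/

set_option autoImplicit false
set_option linter.style.haveILetI false
set_option linter.unusedSectionVars false
set_option linter.unusedVariables false
set_option synthInstance.maxHeartbeats 400000
set_option maxHeartbeats 1600000

noncomputable section

namespace Fermat.Agent.S59.LoSqC.H34

open ModularCurve AlgebraicCurve HahnSeries
open Fermat.Agent.A2 Fermat.Agent.A2.Alg
open Fermat.Agent.S24 Fermat.Agent.A2.H708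
open Fermat.Agent.Ribet.H884 Fermat.Agent.Ribet.H704
open Fermat.Agent.A2.T1.H669 (iota)
open Fermat.Agent.A2.IF.H429 (inertiaField)

/-! ## Generalities -/

section Gen

variable {R F : Type*} [CommRing R] [Field F] [Algebra R F]

/-- The two components of a semistable chart are determined up to order. -/
theorem ssChart_swap_h34 {w : R} {B : Subalgebra R F} (c c' : SSChart w B) :
    (c'.p₁ = c.p₁ ∧ c'.p₂ = c.p₂) ∨ (c'.p₁ = c.p₂ ∧ c'.p₂ = c.p₁) := by
  have hw : ∀ d : SSChart w B, algebraMap R B w ∈ d.p₁ ⊓ d.p₂ := by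
    intro d
    rw [d.inf_eq]
    exact Ideal.mem_span_singleton_self _
  have key : ∀ (d : SSChart w B) (P : Ideal B), P.IsPrime → algebraMap R B w ∈ P →
      d.p₁ ≤ P ∨ d.p₂ ≤ P := by
    intro d P hP hwP
    have hle : d.p₁ * d.p₂ ≤ P := by
      refine le_trans Ideal.mul_le_inf ?_
      rw [d.inf_eq, Ideal.span_le, Set.singleton_subset_iff]
      exact hwP
    exact (Ideal.IsPrime.mul_le hP).1 hle
  -- each component of `c'` contains a component of `c` and conversely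
  have h1 := key c c'.p₁ c'.prime₁ (hw c').1
  have h2 := key c c'.p₂ c'.prime₂ (hw c').2
  have h3 := key c' c.p₁ c.prime₁ (hw c).1
  have h4 := key c' c.p₂ c.prime₂ (hw c).2
  have n1 := c.not_le₁₂
  have n2 := c.not_le₂₁
  have n3 := c'.not_le₁₂
  have n4 := c'.not_le₂₁
  rcases h1 with a | a
  · -- `c.p₁ ≤ c'.p₁`
    have e1 : c'.p₁ = c.p₁ := by
      rcases h3 with b | b
      · exact le_antisymm b a
      · exact absurd (le_trans b a) n4
    have e2 : c'.p₂ = c.p₂ := by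
      rcases h2 with b | b
      · exact absurd (e1 ▸ b) n3
      · rcases h4 with d | d
        · exact absurd (e1 ▸ d) n1
        · exact le_antisymm d b
    exact Or.inl ⟨e1, e2⟩
  · -- `c.p₂ ≤ c'.p₁`
    have e1 : c'.p₁ = c.p₂ := by
      rcases h4 with b | b
      · exact le_antisymm b a
      · exact absurd (le_trans b a) n4
    have e2 : c'.p₂ = c.p₁ := by
      rcases h2 with b | b
      · rcases h3 with d | d
        · exact absurd (e1 ▸ d) n2
        · exact le_antisymm d b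
      · exact absurd (e1 ▸ b) n3
    exact Or.inr ⟨e1, e2⟩

variable {E : Type*} [Field E] [Algebra E F]

theorem divisibleDiv_pow_h34 (m : ℕ) (f : F) (hf : DivisibleDiv E m f) (k : ℕ) :
    DivisibleDiv E m (f ^ k) := by
  intro V hV hE
  obtain ⟨h, u, hh, hu, hu', rfl⟩ := hf V hV hE
  refine ⟨h ^ k, u ^ k, pow_ne_zero _ hh, pow_mem hu k, ?_, ?_⟩
  · rw [← inv_pow]
    exact pow_mem hu' k
  · rw [mul_pow, ← pow_mul, ← pow_mul, mul_comm m k]

theorem divisibleDiv_mul_inv_h34 (m : ℕ) (f g : F) (hf : DivisibleDiv E m f)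
    (hg : DivisibleDiv E m g) : DivisibleDiv E m (f * g⁻¹) := by
  intro V hV hE
  obtain ⟨h, u, hh, hu, hu', rfl⟩ := hf V hV hE
  obtain ⟨h', u', hh', hv, hv', rfl⟩ := hg V hV hE
  refine ⟨h * h'⁻¹, u * u'⁻¹, mul_ne_zero hh (inv_ne_zero hh'), V.mul_mem _ _ hu hv', ?_, ?_⟩
  · rw [mul_inv, inv_inv]
    exact V.mul_mem _ _ hu' hv
  · rw [mul_pow, mul_inv, inv_pow]
    ring

end Gen

/-! ## The finite chart of level `M q` -/

section Level

variable (A : ValuationSubring Qb) (E : IntermediateField ℚ Qb) (M q : ℕ) [NeZero M] [NeZero q]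

/-- The finite chart of level `M q` is a chart, and carries a semistable structure. -/
theorem exists_chart_fin_h34 (hq : q.Prime) (hqM : ¬ q ∣ M)
    (haux : Fermat.Agent.S35.G.HasAux M q) (hE : GoodField A E)
    (w : Mod.RE A E) (hS : Mod.Setting A E M q w) :
    ChartCtx E w (Mod.xE E M q) (Mod.chartAlg A E (M * q) (Mod.xE E M q)) ∧
      Nonempty (SSChart w (Mod.chartAlg A E (M * q) (Mod.xE E M q))) := by
  haveI : IsDiscreteValuationRing ↥(RE A E) := hE.dvr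
  haveI : HenselianLocalRing ↥(RE A E) := hE.henselian
  haveI : IsAlgClosed (IsLocalRing.ResidueField ↥(RE A E)) := hE.algClosed
  have hw : Irreducible w := hS.unif
  obtain ⟨V, W, VM, hV, hW, hVM, hg1, hg2, hDeg, sf, si, cf, ci, hcf, hci⟩ :=
    Fermat.Agent.S35.G.H862.model A E M q w hS hE haux
  obtain ⟨hx, hfr, hconst⟩ := hDeg hq hqM
  have hpos : 0 < Module.finrank
      (IntermediateField.adjoin E ({Mod.xE E M q} : Set (Mod.FE E (M * q))))
      (Mod.FE E (M * q)) := by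
    rw [hfr]
    have h1 := Mod.dedekindPsi_pos_of_ne_zero M (NeZero.ne M)
    positivity
  have hfin : FiniteDimensional
      (IntermediateField.adjoin E ({Mod.xE E M q} : Set (Mod.FE E (M * q))))
      (Mod.FE E (M * q)) := Module.finite_of_finrank_pos hpos
  exact ⟨⟨hw, hx, hfin, hconst, fun _ => Iff.rfl⟩, ⟨cf⟩⟩

/-- Slope `0` modulo `m` on ONE semistable structure of the finite chart ⟹ `SlopeZeroAt`. -/
theorem slopeZeroAt_of_chart_h34 (hE : GoodField A E) (w : Mod.RE A E)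
    (hC : ChartCtx E w (Mod.xE E M q) (Mod.chartAlg A E (M * q) (Mod.xE E M q)))
    (c : SSChart w (Mod.chartAlg A E (M * q) (Mod.xE E M q)))
    (m : ℕ) (y : Mod.FE E (M * q)) (v₁ v₂ : ℤ)
    (hv₁ : I6.ValAt (Mod.FE E (M * q)) c.p₁
      (algebraMap (Mod.RE A E) (Mod.chartAlg A E (M * q) (Mod.xE E M q)) w) y v₁)
    (hv₂ : I6.ValAt (Mod.FE E (M * q)) c.p₂
      (algebraMap (Mod.RE A E) (Mod.chartAlg A E (M * q) (Mod.xE E M q)) w) y v₂)
    (h : (m : ℤ) ∣ v₁ - v₂) : SlopeZeroAt A E M q w m y := by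
  haveI : IsDiscreteValuationRing ↥(RE A E) := hE.dvr
  obtain ⟨hnoeth, hic, hfrac⟩ := H34.chart_instances' w (Mod.xE E M q)
    (Mod.chartAlg A E (M * q) (Mod.xE E M q)) hC
  haveI := hnoeth
  haveI := hic
  haveI := hfrac
  haveI hp₁ : c.p₁.IsPrime := c.prime₁
  haveI hp₂ : c.p₂.IsPrime := c.prime₂
  have hw0 : algebraMap (Mod.RE A E) (Mod.chartAlg A E (M * q) (Mod.xE E M q)) w ≠ 0 :=
    Fermat.Agent.A2.H609.ne_zero_of_inf_eq_span c.p₁ c.p₂ c.inf_eq c.not_le₁₂ c.not_le₂₁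
  have hV₁ : Fermat.Agent.A2.Alg.H132.VertData
      (algebraMap (Mod.RE A E) (Mod.chartAlg A E (M * q) (Mod.xE E M q)) w) c.p₁ c.p₂ :=
    ⟨c.prime₁, hw0, c.not_le₂₁, c.inf_eq⟩
  have hV₂ : Fermat.Agent.A2.Alg.H132.VertData
      (algebraMap (Mod.RE A E) (Mod.chartAlg A E (M * q) (Mod.xE E M q)) w) c.p₂ c.p₁ :=
    ⟨c.prime₂, hw0, c.not_le₁₂, by rw [inf_comm]; exact c.inf_eq⟩
  intro cf V W hV hW hcf u₁ u₂ hu₁ hu₂
  rcases ssChart_swap_h34 c cf with ⟨e1, e2⟩ | ⟨e1, e2⟩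
  · rw [e1] at hu₁
    rw [e2] at hu₂
    have a1 := Fermat.Agent.Ribet.H132.valAt_unique hV₁ hu₁ hv₁
    have a2 := Fermat.Agent.Ribet.H132.valAt_unique hV₂ hu₂ hv₂
    rw [a1, a2]
    have := (Int.dvd_neg).2 h
    rwa [neg_sub] at this
  · rw [e1] at hu₁
    rw [e2] at hu₂
    have a1 := Fermat.Agent.Ribet.H132.valAt_unique hV₂ hu₁ hv₂
    have a2 := Fermat.Agent.Ribet.H132.valAt_unique hV₁ hu₂ hv₁
    rw [a1, a2]
    exact h

end Level

/-! ## Kummer generators with a slope -/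

section Slope

variable (q M m : ℕ) [NeZero M] [NeZero q] [NeZero (q * M)]
variable (A : ValuationSubring Kbar) (E : IntermediateField ℚ Kbar)

/-- **NODE-REL, E-form**, as a hypothesis: VERBATIM the conclusion of `S59.LoSqC.H862.nodeRelE`
(quantified over the chart structure and the function), with a general constant `s` in place of
`(q - 1) ψ(M)`. -/
def NodeRelEAt (w : Mod.RE A E) (s : ℕ) : Prop :=
  ∀ (cf : SSChart w (Mod.chartAlg A E (M * q) (Mod.xE E M q)))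
    (f : Mod.FE E (M * q)), f ≠ 0 → DivisibleDiv E m f →
    (∀ v : Place Kbar (FF (q * M)),
      (m : ℤ) ∣ v.ord (Fermat.Agent.Ribet.H868.toFF E (Nat.mul_comm M q) f)) →
    ∀ v₁ v₂ : ℤ,
      I6.ValAt (Mod.FE E (M * q)) cf.p₁
        (algebraMap (Mod.RE A E) (Mod.chartAlg A E (M * q) (Mod.xE E M q)) w) f v₁ →
      I6.ValAt (Mod.FE E (M * q)) cf.p₂
        (algebraMap (Mod.RE A E) (Mod.chartAlg A E (M * q) (Mod.xE E M q)) w) f v₂ →
      (m : ℤ) ∣ (s : ℤ) * (v₁ - v₂)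

/-- `y ∈ F_E(Mq)` is an `E`-rational Kummer generator (exponent `m`) of the class `x`, of slope
`e = v₁ - v₂` with respect to the chart structure `c`. -/
def KummerSlopeAt (w : Mod.RE A E)
    (c : SSChart w (Mod.chartAlg A E (M * q) (Mod.xE E M q)))
    (x : JZero (q * M)) (y : Mod.FE E (M * q)) (e : ℤ) : Prop :=
  y ≠ 0 ∧ IsKummerGen (q * M) m (Fermat.Agent.Ribet.H868.toFF E (Nat.mul_comm M q) y) x ∧
    DivisibleDiv E m y ∧
    ∃ v₁ v₂ : ℤ,
      I6.ValAt (Mod.FE E (M * q)) c.p₁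
        (algebraMap (Mod.RE A E) (Mod.chartAlg A E (M * q) (Mod.xE E M q)) w) y v₁ ∧
      I6.ValAt (Mod.FE E (M * q)) c.p₂
        (algebraMap (Mod.RE A E) (Mod.chartAlg A E (M * q) (Mod.xE E M q)) w) y v₂ ∧
      e = v₁ - v₂

variable {q M m A E}

/-- The slope of a Kummer generator is killed by `s` modulo `m`. -/
theorem KummerSlopeAt.dvd_h34 {w : Mod.RE A E}
    {c : SSChart w (Mod.chartAlg A E (M * q) (Mod.xE E M q))}
    {x : JZero (q * M)} {y : Mod.FE E (M * q)} {e : ℤ}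
    (h : KummerSlopeAt q M m A E w c x y e) {s : ℕ} (hrel : NodeRelEAt q M m A E w s) :
    (m : ℤ) ∣ (s : ℤ) * e := by
  obtain ⟨hy, hK, hdiv, v₁, v₂, hv₁, hv₂, rfl⟩ := h
  refine hrel c y hy hdiv (fun v => ?_) v₁ v₂ hv₁ hv₂
  obtain ⟨-, D, -, hord⟩ := hK
  rw [hord v]
  exact dvd_mul_right _ _

/-- Powers. -/
theorem KummerSlopeAt.pow_h34 (hE : GoodField A E) {w : Mod.RE A E}
    (hC : ChartCtx E w (Mod.xE E M q) (Mod.chartAlg A E (M * q) (Mod.xE E M q)))
    {c : SSChart w (Mod.chartAlg A E (M * q) (Mod.xE E M q))}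
    {x : JZero (q * M)} {y : Mod.FE E (M * q)} {e : ℤ}
    (h : KummerSlopeAt q M m A E w c x y e) (k : ℕ) :
    KummerSlopeAt q M m A E w c (k • x) (y ^ k) ((k : ℤ) * e) := by
  haveI : IsDiscreteValuationRing ↥(RE A E) := hE.dvr
  obtain ⟨hnoeth, hic, hfrac⟩ := H34.chart_instances' w (Mod.xE E M q)
    (Mod.chartAlg A E (M * q) (Mod.xE E M q)) hC
  haveI := hnoeth
  haveI := hic
  haveI := hfrac
  haveI hp₁ : c.p₁.IsPrime := c.prime₁
  haveI hp₂ : c.p₂.IsPrime := c.prime₂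
  have hw0 : algebraMap (Mod.RE A E) (Mod.chartAlg A E (M * q) (Mod.xE E M q)) w ≠ 0 :=
    Fermat.Agent.A2.H609.ne_zero_of_inf_eq_span c.p₁ c.p₂ c.inf_eq c.not_le₁₂ c.not_le₂₁
  have hV₁ : Fermat.Agent.A2.Alg.H132.VertData
      (algebraMap (Mod.RE A E) (Mod.chartAlg A E (M * q) (Mod.xE E M q)) w) c.p₁ c.p₂ :=
    ⟨c.prime₁, hw0, c.not_le₂₁, c.inf_eq⟩
  have hV₂ : Fermat.Agent.A2.Alg.H132.VertData
      (algebraMap (Mod.RE A E) (Mod.chartAlg A E (M * q) (Mod.xE E M q)) w) c.p₂ c.p₁ :=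
    ⟨c.prime₂, hw0, c.not_le₁₂, by rw [inf_comm]; exact c.inf_eq⟩
  obtain ⟨hy, hK, hdiv, v₁, v₂, hv₁, hv₂, rfl⟩ := h
  refine ⟨pow_ne_zero _ hy, ?_, divisibleDiv_pow_h34 m y hdiv k, (k : ℤ) * v₁, (k : ℤ) * v₂,
    Fermat.Agent.Ribet.H132.valAt_pow hV₁ hv₁ k, Fermat.Agent.Ribet.H132.valAt_pow hV₂ hv₂ k,
    by ring⟩
  rw [map_pow]
  exact hK.pow k

/-- Quotients. -/
theorem KummerSlopeAt.mul_inv_h34 (hE : GoodField A E) {w : Mod.RE A E}
    (hC : ChartCtx E w (Mod.xE E M q) (Mod.chartAlg A E (M * q) (Mod.xE E M q)))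
    {c : SSChart w (Mod.chartAlg A E (M * q) (Mod.xE E M q))}
    {x x' : JZero (q * M)} {y y' : Mod.FE E (M * q)} {e e' : ℤ}
    (h : KummerSlopeAt q M m A E w c x y e) (h' : KummerSlopeAt q M m A E w c x' y' e') :
    KummerSlopeAt q M m A E w c (x - x') (y * y'⁻¹) (e - e') := by
  haveI : IsDiscreteValuationRing ↥(RE A E) := hE.dvr
  obtain ⟨hnoeth, hic, hfrac⟩ := H34.chart_instances' w (Mod.xE E M q)
    (Mod.chartAlg A E (M * q) (Mod.xE E M q)) hC
  haveI := hnoeth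
  haveI := hic
  haveI := hfrac
  haveI hp₁ : c.p₁.IsPrime := c.prime₁
  haveI hp₂ : c.p₂.IsPrime := c.prime₂
  have hw0 : algebraMap (Mod.RE A E) (Mod.chartAlg A E (M * q) (Mod.xE E M q)) w ≠ 0 :=
    Fermat.Agent.A2.H609.ne_zero_of_inf_eq_span c.p₁ c.p₂ c.inf_eq c.not_le₁₂ c.not_le₂₁
  have hV₁ : Fermat.Agent.A2.Alg.H132.VertData
      (algebraMap (Mod.RE A E) (Mod.chartAlg A E (M * q) (Mod.xE E M q)) w) c.p₁ c.p₂ :=
    ⟨c.prime₁, hw0, c.not_le₂₁, c.inf_eq⟩
  have hV₂ : Fermat.Agent.A2.Alg.H132.VertData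
      (algebraMap (Mod.RE A E) (Mod.chartAlg A E (M * q) (Mod.xE E M q)) w) c.p₂ c.p₁ :=
    ⟨c.prime₂, hw0, c.not_le₁₂, by rw [inf_comm]; exact c.inf_eq⟩
  obtain ⟨hy, hK, hdiv, v₁, v₂, hv₁, hv₂, rfl⟩ := h
  obtain ⟨hy', hK', hdiv', v₁', v₂', hv₁', hv₂', rfl⟩ := h'
  refine ⟨mul_ne_zero hy (inv_ne_zero hy'), ?_, divisibleDiv_mul_inv_h34 m y y' hdiv hdiv',
    v₁ + -v₁', v₂ + -v₂',
    Fermat.Agent.Ribet.H132.valAt_mul hV₁ hv₁ (Fermat.Agent.Ribet.H132.valAt_inv hV₁ hv₁'),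
    Fermat.Agent.Ribet.H132.valAt_mul hV₂ hv₂ (Fermat.Agent.Ribet.H132.valAt_inv hV₂ hv₂'),
    by ring⟩
  rw [map_mul, map_inv₀, sub_eq_add_neg]
  exact hK.mul hK'.inv

end Slope

/-! ## The J-form -/

section JForm

variable (q M m : ℕ) [NeZero M] [NeZero q] [NeZero (q * M)]

/-- A class with an `E`-rational Kummer generator of slope `≡ 0` modulo `m` lies in `finSetQ`. -/
theorem mem_finSetQ_of_kummerSlope_h34 (hq : q.Prime) (hqM : ¬ q ∣ M)
    (haux : Fermat.Agent.S35.G.HasAux M q) (hm : 0 < m)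
    (A : ValuationSubring Kbar) (hA : A.LiesOverPrime q)
    (E : IntermediateField ℚ Kbar) (hE : GoodField A E)
    (w : Mod.RE A E) (hS : Mod.Setting A E M q w) (hreg : NodeRegAt A E M q w)
    (c : SSChart w (Mod.chartAlg A E (M * q) (Mod.xE E M q)))
    (x : JZero (q * M)) (y : Mod.FE E (M * q)) (e : ℤ)
    (h : KummerSlopeAt q M m A E w c x y e) (hme : (m : ℤ) ∣ e) :
    x ∈ Fermat.Agent.Ribet.H158.WallQ.finSetQ m q M A := by
  obtain ⟨hC, -⟩ := exists_chart_fin_h34 A E M q hq hqM haux hE w hS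
  obtain ⟨hy, hK, hdiv, v₁, v₂, hv₁, hv₂, rfl⟩ := h
  have hslope := slopeZeroAt_of_chart_h34 A E M q hE w hC c m y v₁ v₂ hv₁ hv₂ hme
  exact mem_finSetQ_of_slopeZero_h34 q M m hq hqM haux hm A hA E hE w hS hreg y hy hdiv hslope _
    (Fermat.Agent.Ribet.H868.coe_toFF E (Nat.mul_comm M q) y) x hK

/-- **Descent**: an inertia-fixed `m`-torsion class has a Kummer generator over the inertia field
(with a slope). -/
theorem exists_kummerSlopeAt_h34 (hq : q.Prime) (hqM : ¬ q ∣ M)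
    (haux : Fermat.Agent.S35.G.HasAux M q)
    (A : ValuationSubring Kbar) (hA : A.LiesOverPrime q)
    (c : SSChart ((q : ℕ) : Mod.RE A (inertiaField A))
      (Mod.chartAlg A (inertiaField A) (M * q) (Mod.xE (inertiaField A) M q)))
    (x : JZero (q * M)) (hx : m • x = 0)
    (hfix : ∀ σ ∈ A.inertiaSubgroupIn ℚ, σ • x = x) :
    ∃ (y : Mod.FE (inertiaField A) (M * q)) (e : ℤ),
      KummerSlopeAt q M m A (inertiaField A) ((q : ℕ) : Mod.RE A (inertiaField A)) c x y e := by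
  have hE : GoodField A (inertiaField A) :=
    Fermat.Agent.Ribet.H868.goodField_inertiaField A q hq hA
  have hS : Mod.Setting A (inertiaField A) M q ((q : ℕ) : Mod.RE A (inertiaField A)) :=
    Fermat.Agent.Ribet.H868.setting_inertiaField A q M hq hqM (NeZero.ne M) hA
  haveI : IsDiscreteValuationRing ↥(Mod.RE A (inertiaField A)) := hE.dvr
  obtain ⟨hC, -⟩ := exists_chart_fin_h34 A (inertiaField A) M q hq hqM haux hE _ hS
  obtain ⟨y, hy0, hkum, hdiv⟩ :=
    Fermat.Agent.Ribet.H868.exists_fixed_kummerGen (q * M) m A x hx hfix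
  have hy'0 : Fermat.Agent.Ribet.H868.castLevelE (inertiaField A) (Nat.mul_comm q M) y ≠ 0 :=
    (map_ne_zero_iff _
      (Fermat.Agent.Ribet.H868.castLevelE (inertiaField A) (Nat.mul_comm q M)).injective).mpr hy0
  have hdiv' := Fermat.Agent.Ribet.H868.divisibleDiv_castLevelE (inertiaField A)
    (Nat.mul_comm q M) m y hdiv
  obtain ⟨v₁, v₂, hv₁, hv₂⟩ := Fermat.Agent.Ribet.H868.exists_valAt_chart (E := inertiaField A)
    ((q : ℕ) : Mod.RE A (inertiaField A)) (Mod.xE (inertiaField A) M q)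
    (Mod.chartAlg A (inertiaField A) (M * q) (Mod.xE (inertiaField A) M q)) hC c _ hy'0
  refine ⟨_, v₁ - v₂, hy'0, ?_, hdiv', v₁, v₂, hv₁, hv₂, rfl⟩
  rw [Fermat.Agent.Ribet.H868.toFF_castLevelE (inertiaField A) (Nat.mul_comm M q) y]
  exact hkum

/-- **NODE-REL, J-form, every exponent `m`**: `s` kills `J₀(qM)[m]^I` modulo the classes of slope
`0`.  (`hreg`, `hrel` at the inertia field with uniformiser `q`.) -/
theorem nodeRelJ_nsmul_h34 (hq : q.Prime) (hqM : ¬ q ∣ M)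
    (haux : Fermat.Agent.S35.G.HasAux M q) (hm : 0 < m)
    (A : ValuationSubring Kbar) (hA : A.LiesOverPrime q)
    (hreg : NodeRegAt A (inertiaField A) M q ((q : ℕ) : Mod.RE A (inertiaField A)))
    (s : ℕ)
    (hrel : NodeRelEAt q M m A (inertiaField A) ((q : ℕ) : Mod.RE A (inertiaField A)) s)
    (x : JZero (q * M)) (hx : m • x = 0)
    (hfix : ∀ σ ∈ A.inertiaSubgroupIn ℚ, σ • x = x) :
    s • x ∈ Fermat.Agent.Ribet.H158.WallQ.finSetQ m q M A := by
  have hE : GoodField A (inertiaField A) :=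
    Fermat.Agent.Ribet.H868.goodField_inertiaField A q hq hA
  have hS : Mod.Setting A (inertiaField A) M q ((q : ℕ) : Mod.RE A (inertiaField A)) :=
    Fermat.Agent.Ribet.H868.setting_inertiaField A q M hq hqM (NeZero.ne M) hA
  obtain ⟨hC, ⟨c⟩⟩ := exists_chart_fin_h34 A (inertiaField A) M q hq hqM haux hE _ hS
  obtain ⟨y, e, h⟩ := exists_kummerSlopeAt_h34 q M m hq hqM haux A hA c x hx hfix
  exact mem_finSetQ_of_kummerSlope_h34 q M m hq hqM haux hm A hA (inertiaField A) hE _ hS hreg c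
    (s • x) (y ^ s) ((s : ℤ) * e) (h.pow_h34 hE hC s) (h.dvd_h34 hrel)

/-- … in `finPartQ`. -/
theorem nodeRelJ_nsmul_finPartQ_h34 (hq : q.Prime) (hqM : ¬ q ∣ M)
    (haux : Fermat.Agent.S35.G.HasAux M q) (hm : 0 < m)
    (A : ValuationSubring Kbar) (hA : A.LiesOverPrime q)
    (hreg : NodeRegAt A (inertiaField A) M q ((q : ℕ) : Mod.RE A (inertiaField A)))
    (s : ℕ)
    (hrel : NodeRelEAt q M m A (inertiaField A) ((q : ℕ) : Mod.RE A (inertiaField A)) s)
    (x : JZero (q * M)) (hx : m • x = 0)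
    (hfix : ∀ σ ∈ A.inertiaSubgroupIn ℚ, σ • x = x) :
    s • x ∈ Fermat.Agent.Ribet.H158.WallQ.finPartQ m q M A :=
  AddSubgroup.subset_closure
    (nodeRelJ_nsmul_h34 q M m hq hqM haux hm A hA hreg s hrel x hx hfix)

/-- **NODE-REL, J-form, colouring**: `#(J₀(qM)[m]^I / 𝓕 ∩ J₀(qM)[m]^I) ≤ s`, every `m`. -/
theorem nodeRelJ_colour_h34 (hq : q.Prime) (hqM : ¬ q ∣ M)
    (haux : Fermat.Agent.S35.G.HasAux M q) (hm : 0 < m)
    (A : ValuationSubring Kbar) (hA : A.LiesOverPrime q)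
    (hreg : NodeRegAt A (inertiaField A) M q ((q : ℕ) : Mod.RE A (inertiaField A)))
    (s : ℕ) (hs : 0 < s)
    (hrel : NodeRelEAt q M m A (inertiaField A) ((q : ℕ) : Mod.RE A (inertiaField A)) s) :
    ∃ τ : JZero (q * M) → ℕ,
      ∀ x : JZero (q * M), m • x = 0 → (∀ σ ∈ A.inertiaSubgroupIn ℚ, σ • x = x) →
        τ x < s ∧
        ∀ x' : JZero (q * M), m • x' = 0 → (∀ σ ∈ A.inertiaSubgroupIn ℚ, σ • x' = x') →
          τ x = τ x' → x - x' ∈ Fermat.Agent.Ribet.H158.WallQ.finSetQ m q M A := by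
  have hE : GoodField A (inertiaField A) :=
    Fermat.Agent.Ribet.H868.goodField_inertiaField A q hq hA
  have hS : Mod.Setting A (inertiaField A) M q ((q : ℕ) : Mod.RE A (inertiaField A)) :=
    Fermat.Agent.Ribet.H868.setting_inertiaField A q M hq hqM (NeZero.ne M) hA
  obtain ⟨hC, ⟨c⟩⟩ := exists_chart_fin_h34 A (inertiaField A) M q hq hqM haux hE _ hS
  have hsZ : (0 : ℤ) < (s : ℤ) := by exact_mod_cast hs
  have hmZ : (m : ℤ) ≠ 0 := by exact_mod_cast hm.ne'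
  -- the chosen data
  have hex : ∀ x : JZero (q * M), ∃ (y : Mod.FE (inertiaField A) (M * q)) (e : ℤ),
      (m • x = 0 ∧ ∀ σ ∈ A.inertiaSubgroupIn ℚ, σ • x = x) →
        KummerSlopeAt q M m A (inertiaField A) ((q : ℕ) : Mod.RE A (inertiaField A)) c x y e := by
    intro x
    by_cases hx : m • x = 0 ∧ ∀ σ ∈ A.inertiaSubgroupIn ℚ, σ • x = x
    · obtain ⟨y, e, h⟩ := exists_kummerSlopeAt_h34 q M m hq hqM haux A hA c x hx.1 hx.2
      exact ⟨y, e, fun _ => h⟩
    · exact ⟨1, 0, fun h => absurd h hx⟩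
  choose Y e hYe using hex
  refine ⟨fun x => ((e x * (s : ℤ) / (m : ℤ)) % (s : ℤ)).toNat, fun x hx hfix => ⟨?_, ?_⟩⟩
  · have h1 : 0 ≤ (e x * (s : ℤ) / (m : ℤ)) % (s : ℤ) := Int.emod_nonneg _ hsZ.ne'
    have h2 : (e x * (s : ℤ) / (m : ℤ)) % (s : ℤ) < (s : ℤ) := Int.emod_lt_of_pos _ hsZ
    show ((e x * (s : ℤ) / (m : ℤ)) % (s : ℤ)).toNat < s
    omega
  · intro x' hx' hfix' hτ
    have hT1 := hYe x ⟨hx, hfix⟩
    have hT2 := hYe x' ⟨hx', hfix'⟩
    obtain ⟨t, ht⟩ := hT1.dvd_h34 hrel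
    obtain ⟨t', ht'⟩ := hT2.dvd_h34 hrel
    have e1 : e x * (s : ℤ) / (m : ℤ) = t := by
      rw [mul_comm, ht, Int.mul_ediv_cancel_left _ hmZ]
    have e2 : e x' * (s : ℤ) / (m : ℤ) = t' := by
      rw [mul_comm, ht', Int.mul_ediv_cancel_left _ hmZ]
    have h1 : 0 ≤ t % (s : ℤ) := Int.emod_nonneg _ hsZ.ne'
    have h2 : 0 ≤ t' % (s : ℤ) := Int.emod_nonneg _ hsZ.ne'
    have hτ' : (t % (s : ℤ)).toNat = (t' % (s : ℤ)).toNat := by
      have := hτ
      simp only [e1, e2] at this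
      exact this
    have h3 : t % (s : ℤ) = t' % (s : ℤ) := by omega
    have h4 : (s : ℤ) ∣ t - t' :=
      Int.ModEq.dvd (show t' ≡ t [ZMOD (s : ℤ)] from h3.symm)
    obtain ⟨k, hk⟩ := h4
    have h5 : (m : ℤ) ∣ e x - e x' := by
      refine ⟨k, ?_⟩
      have h6 : (s : ℤ) * (e x - e x') = (s : ℤ) * ((m : ℤ) * k) := by
        have : (s : ℤ) * (e x - e x') = (m : ℤ) * (t - t') := by
          rw [mul_sub, ht, ht']
          ring
        rw [this, hk]
        ring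
      exact mul_left_cancel₀ hsZ.ne' h6
    exact mem_finSetQ_of_kummerSlope_h34 q M m hq hqM haux hm A hA (inertiaField A) hE _ hS hreg
      c (x - x') (Y x * (Y x')⁻¹) (e x - e x') (hT1.mul_inv_h34 hE hC hT2) h5

end JForm

/-! ## Counting form (Mathlib only) -/

section Count

variable {G : Type*} [AddCommGroup G]

/-- From a colouring to a count: if `τ < s` on `I` and equal colours differ by an element of the
finite subgroup `F`, then `#I ≤ s · #F`. -/
theorem card_le_of_colour_h34 (I F : AddSubgroup G) [Finite F] (s : ℕ) (τ : G → ℕ)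
    (hτ : ∀ x ∈ I, τ x < s) (hd : ∀ x ∈ I, ∀ x' ∈ I, τ x = τ x' → x - x' ∈ F) :
    Nat.card I ≤ s * Nat.card F := by
  classical
  -- a representative of each colour
  have hrep : ∀ t : Fin s, ∃ x₀ : G, (∃ x ∈ I, τ x = t) → (x₀ ∈ I ∧ τ x₀ = t) := by
    intro t
    by_cases h : ∃ x ∈ I, τ x = t
    · obtain ⟨x, hx, hxt⟩ := h
      exact ⟨x, fun _ => ⟨hx, hxt⟩⟩
    · exact ⟨0, fun h' => absurd h' h⟩
  choose r hr using hrep
  let f : I → Fin s × F := fun x =>
    (⟨τ x, hτ x x.2⟩,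
      ⟨(x : G) - r ⟨τ x, hτ x x.2⟩,
        hd x x.2 _ (hr ⟨τ x, hτ x x.2⟩ ⟨x, x.2, rfl⟩).1
          (hr ⟨τ x, hτ x x.2⟩ ⟨x, x.2, rfl⟩).2.symm⟩)
  have hf : Function.Injective f := by
    intro x x' h
    have h1 : (⟨τ x, hτ x x.2⟩ : Fin s) = ⟨τ x', hτ x' x'.2⟩ := congrArg Prod.fst h
    have h2 : (x : G) - r ⟨τ x, hτ x x.2⟩ = (x' : G) - r ⟨τ x', hτ x' x'.2⟩ :=
      congrArg (fun z => ((z.2 : F) : G)) h
    rw [h1] at h2
    exact Subtype.ext (sub_left_injective h2)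
  have := Nat.card_le_card_of_injective f hf
  rwa [Nat.card_prod, Nat.card_fin] at this

end Count

end Fermat.Agent.S59.LoSqC.H34

end
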