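import Fermat.Agent.S59.LoSqC.H34.NodeRelJ
import Fermat.Agent.S59.LoSqC.H862.NodeRel

/-!
# Row S59, cell (C) LO-SQ, leaf W-COUNT / NODE-J, part 4 (helper34):
# NODE-REL in J-form for EVERY exponent `m`, from thickness one at the inertia field

`NodeRelJ.lean` (hypothesis form) instantiated with `S59.LoSqC.H862.nodeRelE` (helper862,
origin/helper862): the ONLY remaining hypothesis is

  `hTh1 : H862.Th1At A (inertiaField A) M q q`
     = the conclusion of `S36.H803.Th1Statement` at the inertia field with uniformiser `q`.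

With `s = (q - 1) ψ(M)`, for every `m > 0` (`m = 3 ^ n` included):

* `nodeRelJ_th1_nsmul_h34`  : `x ∈ J₀(qM)[m]^I ⟹ s • x ∈ finPartQ m q M A`;
* `nodeRelJ_th1_colour_h34` : colouring `τ < s` on `J₀(qM)[m]^I`, equal colours differ by an
                              element of `finPartQ m q M A`;
* `nodeRelJ_th1_card_h34`   : `#I ≤ s · #F` for subgroups `I ⊆ J₀(qM)[m]^I`, `F ⊇ finSetQ` finite.
-/

set_option autoImplicit false
set_option linter.style.haveILetI false
set_option linter.unusedSectionVars false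
set_option linter.unusedVariables false
set_option synthInstance.maxHeartbeats 400000
set_option maxHeartbeats 1600000

noncomputable section

namespace Fermat.Agent.S59.LoSqC.H34

open ModularCurve AlgebraicCurve HahnSeries
open Fermat.Agent.A2 Fermat.Agent.A2.Alg
open Fermat.Agent.S24 Fermat.Agent.A2.H708
open Fermat.Agent.Ribet.H884 Fermat.Agent.Ribet.H704
open Fermat.Agent.A2.IF.H429 (inertiaField)

variable (q M m : ℕ) [NeZero M] [NeZero q] [NeZero (q * M)]

/-- `NodeRegAt` from `H862.Th1At`. -/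
theorem nodeRegAt_of_th1At_h34 (A : ValuationSubring Kbar) (E : IntermediateField ℚ Kbar)
    (w : Mod.RE A E) (h : Fermat.Agent.S59.LoSqC.H862.Th1At A E M q w) :
    NodeRegAt A E M q w :=
  nodeRegAt_of_th1_h34 A E M q w h

/-- `NodeRelEAt` with `s = (q - 1) ψ(M)` from `H862.nodeRelE`. -/
theorem nodeRelEAt_of_th1At_h34 (hm : 0 < m) (hq : q.Prime) (hqM : ¬ q ∣ M)
    (haux : Fermat.Agent.S35.G.HasAux M q)
    (A : ValuationSubring Kbar) (hA : A.LiesOverPrime q)
    (E : IntermediateField ℚ Kbar) (w : Mod.RE A E) (hS : Mod.Setting A E M q w)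
    (hE : GoodField A E) (hwq : (w : E) = (q : E))
    (hTh1 : Fermat.Agent.S59.LoSqC.H862.Th1At A E M q w) :
    NodeRelEAt q M m A E w ((q - 1) * dedekindPsi M) := by
  intro cf f hf hdivE hdivK v₁ v₂ hv₁ hv₂
  exact Fermat.Agent.S59.LoSqC.H862.nodeRelE m q M hm hq hqM haux A hA E w hS hE hwq hTh1 cf f hf
    hdivE hdivK v₁ v₂ hv₁ hv₂

/-- **NODE-REL, J-form, every `m`, from thickness one**: `(q - 1) ψ(M)` kills `J₀(qM)[m]^I`
modulo the finite part. -/
theorem nodeRelJ_th1_nsmul_h34 (hq : q.Prime) (hqM : ¬ q ∣ M)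
    (haux : Fermat.Agent.S35.G.HasAux M q) (hm : 0 < m)
    (A : ValuationSubring Kbar) (hA : A.LiesOverPrime q)
    (hTh1 : Fermat.Agent.S59.LoSqC.H862.Th1At A (inertiaField A) M q
      ((q : ℕ) : Mod.RE A (inertiaField A)))
    (x : JZero (q * M)) (hx : m • x = 0)
    (hfix : ∀ σ ∈ A.inertiaSubgroupIn ℚ, σ • x = x) :
    ((q - 1) * dedekindPsi M) • x ∈ Fermat.Agent.Ribet.H158.WallQ.finPartQ m q M A := by
  have hE : GoodField A (inertiaField A) :=
    Fermat.Agent.Ribet.H868.goodField_inertiaField A q hq hA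
  have hS : Mod.Setting A (inertiaField A) M q ((q : ℕ) : Mod.RE A (inertiaField A)) :=
    Fermat.Agent.Ribet.H868.setting_inertiaField A q M hq hqM (NeZero.ne M) hA
  have hwq : ((((q : ℕ) : Mod.RE A (inertiaField A)) : inertiaField A)) =
      (q : inertiaField A) := by
    simp
  exact nodeRelJ_nsmul_finPartQ_h34 q M m hq hqM haux hm A hA
    (nodeRegAt_of_th1At_h34 q M A _ _ hTh1) _
    (nodeRelEAt_of_th1At_h34 q M m hm hq hqM haux A hA _ _ hS hE hwq hTh1) x hx hfix

/-- **NODE-REL, J-form, colouring, every `m`, from thickness one.** -/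
theorem nodeRelJ_th1_colour_h34 (hq : q.Prime) (hqM : ¬ q ∣ M)
    (haux : Fermat.Agent.S35.G.HasAux M q) (hm : 0 < m)
    (A : ValuationSubring Kbar) (hA : A.LiesOverPrime q)
    (hTh1 : Fermat.Agent.S59.LoSqC.H862.Th1At A (inertiaField A) M q
      ((q : ℕ) : Mod.RE A (inertiaField A))) :
    ∃ τ : JZero (q * M) → ℕ,
      ∀ x : JZero (q * M), m • x = 0 → (∀ σ ∈ A.inertiaSubgroupIn ℚ, σ • x = x) →
        τ x < (q - 1) * dedekindPsi M ∧
        ∀ x' : JZero (q * M), m • x' = 0 → (∀ σ ∈ A.inertiaSubgroupIn ℚ, σ • x' = x') →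
          τ x = τ x' → x - x' ∈ Fermat.Agent.Ribet.H158.WallQ.finPartQ m q M A := by
  have hE : GoodField A (inertiaField A) :=
    Fermat.Agent.Ribet.H868.goodField_inertiaField A q hq hA
  have hS : Mod.Setting A (inertiaField A) M q ((q : ℕ) : Mod.RE A (inertiaField A)) :=
    Fermat.Agent.Ribet.H868.setting_inertiaField A q M hq hqM (NeZero.ne M) hA
  have hwq : ((((q : ℕ) : Mod.RE A (inertiaField A)) : inertiaField A)) =
      (q : inertiaField A) := by
    simp
  have hs : 0 < (q - 1) * dedekindPsi M := by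
    have h1 := Mod.dedekindPsi_pos_of_ne_zero M (NeZero.ne M)
    have h2 : 0 < q - 1 := by
      have := hq.two_le
      omega
    positivity
  obtain ⟨τ, hτ⟩ := nodeRelJ_colour_h34 q M m hq hqM haux hm A hA
    (nodeRegAt_of_th1At_h34 q M A _ _ hTh1) _ hs
    (nodeRelEAt_of_th1At_h34 q M m hm hq hqM haux A hA _ _ hS hE hwq hTh1)
  refine ⟨τ, fun x hx hfix => ⟨(hτ x hx hfix).1, fun x' hx' hfix' h => ?_⟩⟩
  exact AddSubgroup.subset_closure ((hτ x hx hfix).2 x' hx' hfix' h)

/-- **NODE-REL, J-form, counting, every `m`, from thickness one**: for subgroups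
`I ⊆ J₀(qM)[m]^I_A` and `F ⊇ finPartQ m q M A` (finite): `#I ≤ (q - 1) ψ(M) · #F`. -/
theorem nodeRelJ_th1_card_h34 (hq : q.Prime) (hqM : ¬ q ∣ M)
    (haux : Fermat.Agent.S35.G.HasAux M q) (hm : 0 < m)
    (A : ValuationSubring Kbar) (hA : A.LiesOverPrime q)
    (hTh1 : Fermat.Agent.S59.LoSqC.H862.Th1At A (inertiaField A) M q
      ((q : ℕ) : Mod.RE A (inertiaField A)))
    (I F : AddSubgroup (JZero (q * M))) [Finite F]
    (hI : ∀ x ∈ I, m • x = 0 ∧ ∀ σ ∈ A.inertiaSubgroupIn ℚ, σ • x = x)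
    (hF : Fermat.Agent.Ribet.H158.WallQ.finPartQ m q M A ≤ F) :
    Nat.card I ≤ (q - 1) * dedekindPsi M * Nat.card F := by
  obtain ⟨τ, hτ⟩ := nodeRelJ_th1_colour_h34 q M m hq hqM haux hm A hA hTh1
  exact card_le_of_colour_h34 I F _ τ (fun x hx => (hτ x (hI x hx).1 (hI x hx).2).1)
    (fun x hx x' hx' h => hF ((hτ x (hI x hx).1 (hI x hx).2).2 x' (hI x' hx').1 (hI x' hx').2 h))

end Fermat.Agent.S59.LoSqC.H34

end
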