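import Fermat.Agent.S59.LoSqC.H34.NodeRelJ862
import Fermat.Agent.S59.LoSqC.H862.NodeRelCard

/-!
# Row S59, cell (C) LO-SQ, leaf W-COUNT / NODE-J, part 5 (helper34):
# the E-slope-zero classes (`H862.HasSlopeZeroGen`) form a SUBGROUP of `finPartQ ∩ J₀(qM)[m]`

Vocabulary of helper862 (`S59/LoSqC/H862/NodeRelCard.lean`, origin/helper862 @ed4fe6210):
`HasSlopeZeroGen m q M A x` = the class `x` has a Kummer generator `g` (exponent `m`) over the
inertia field `E` of `A` whose branch valuations along the two components of SOME semistable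
structure `cf` of the finite chart of level `M q` are congruent modulo `m`.

* `hasSlopeZeroGen_iff_chart_h34` : the structure `cf` may be FIXED in advance
                                    (`ssChart_swap_h34`: the components are unique up to order);
* `hasSlopeZeroGen_zero/neg/add/sub_h34`, **`slopeZeroPart_h34 m q M A : AddSubgroup`** with
  `mem_slopeZeroPart_h34 : x ∈ slopeZeroPart_h34 m q M A ↔ HasSlopeZeroGen m q M A x`;
* `nsmul_eq_zero_of_hasSlopeZeroGen_h34` : the classes are killed by `m`;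
* `hasSlopeZeroGen_nsmul_of_mul_h34` (COMPAT, `hFc`) : `x ∈ F_{d k} ⟹ d • x ∈ F_k`;
* `hasSlopeZeroGen_mul_h34` (COMPAT) : `F_m ⊆ F_{m d}`;
* **`mem_finSetQ_of_hasSlopeZeroGen_h34`**, `slopeZeroPart_le_finPartQ_h34` (FIN-OF-SLOPE,
  from thickness one `H862.Th1At`): `F_m ⊆ finSetQ m q M A ⊆ finPartQ m q M A`
  — so RED-HOM (`H296.exists_redHom_h296`, defined on `finPartQ`) is defined on `F_m`;
* `nodeRel_card_slopeZeroPart_h34` : `#I ≤ (q - 1) ψ(M) · #(F_m ⊓ I)` (= `H862.nodeRel_card_th1`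
  at `F = slopeZeroPart_h34`).
-/

set_option autoImplicit false
set_option linter.style.haveILetI false
set_option linter.unusedSectionVars false
set_option linter.unusedVariables false
set_option synthInstance.maxHeartbeats 400000
set_option maxHeartbeats 1600000

noncomputable section

namespace Fermat.Agent.S59.LoSqC.H34

open ModularCurve AlgebraicCurve HahnSeries
open Fermat.Agent.A2 Fermat.Agent.A2.Alg
open Fermat.Agent.S24 Fermat.Agent.A2.H708
open Fermat.Agent.Ribet.H884 Fermat.Agent.Ribet.H704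
open Fermat.Agent.A2.IF.H429 (inertiaField)
open Fermat.Agent.S59.LoSqC.H862 (HasSlopeZeroGen)

variable (q M m : ℕ) [NeZero M] [NeZero q] [NeZero (q * M)]

/-- `HasSlopeZeroGen` in terms of `KummerSlopeAt`. -/
theorem hasSlopeZeroGen_iff_h34 (A : ValuationSubring Kbar) (x : JZero (q * M)) :
    HasSlopeZeroGen m q M A x ↔
      ∃ (c : SSChart ((q : ℕ) : Mod.RE A (inertiaField A))
          (Mod.chartAlg A (inertiaField A) (M * q) (Mod.xE (inertiaField A) M q)))
        (y : Mod.FE (inertiaField A) (M * q)) (e : ℤ),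
        KummerSlopeAt q M m A (inertiaField A) ((q : ℕ) : Mod.RE A (inertiaField A)) c x y e ∧
          (m : ℤ) ∣ e := by
  constructor
  · rintro ⟨g, cf, v₁, v₂, hg, hdiv, hK, hv₁, hv₂, hd⟩
    exact ⟨cf, g, v₁ - v₂, ⟨hg, hK, hdiv, v₁, v₂, hv₁, hv₂, rfl⟩, hd⟩
  · rintro ⟨cf, g, e, ⟨hg, hK, hdiv, v₁, v₂, hv₁, hv₂, rfl⟩, hd⟩
    exact ⟨g, cf, v₁, v₂, hg, hdiv, hK, hv₁, hv₂, hd⟩

/-- Change of the chart structure. -/
theorem KummerSlopeAt.swap_h34 {A : ValuationSubring Kbar} {E : IntermediateField ℚ Kbar}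
    {w : Mod.RE A E} (c c' : SSChart w (Mod.chartAlg A E (M * q) (Mod.xE E M q)))
    {x : JZero (q * M)} {y : Mod.FE E (M * q)} {e : ℤ}
    (h : KummerSlopeAt q M m A E w c x y e) :
    KummerSlopeAt q M m A E w c' x y e ∨ KummerSlopeAt q M m A E w c' x y (-e) := by
  obtain ⟨hy, hK, hdiv, v₁, v₂, hv₁, hv₂, rfl⟩ := h
  rcases ssChart_swap_h34 c c' with ⟨e1, e2⟩ | ⟨e1, e2⟩
  · left
    refine ⟨hy, hK, hdiv, v₁, v₂, ?_, ?_, rfl⟩
    · rw [e1]; exact hv₁
    · rw [e2]; exact hv₂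
  · right
    refine ⟨hy, hK, hdiv, v₂, v₁, ?_, ?_, by ring⟩
    · rw [e1]; exact hv₂
    · rw [e2]; exact hv₁

/-- The chart structure in `HasSlopeZeroGen` may be fixed in advance. -/
theorem hasSlopeZeroGen_iff_chart_h34 (A : ValuationSubring Kbar)
    (c : SSChart ((q : ℕ) : Mod.RE A (inertiaField A))
      (Mod.chartAlg A (inertiaField A) (M * q) (Mod.xE (inertiaField A) M q)))
    (x : JZero (q * M)) :
    HasSlopeZeroGen m q M A x ↔
      ∃ (y : Mod.FE (inertiaField A) (M * q)) (e : ℤ),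
        KummerSlopeAt q M m A (inertiaField A) ((q : ℕ) : Mod.RE A (inertiaField A)) c x y e ∧
          (m : ℤ) ∣ e := by
  rw [hasSlopeZeroGen_iff_h34]
  constructor
  · rintro ⟨c', y, e, h, hd⟩
    rcases KummerSlopeAt.swap_h34 q M m c' c h with h' | h'
    · exact ⟨y, e, h', hd⟩
    · exact ⟨y, -e, h', (Int.dvd_neg).2 hd⟩
  · rintro ⟨y, e, h, hd⟩
    exact ⟨c, y, e, h, hd⟩

section Group

variable (hq : q.Prime) (hqM : ¬ q ∣ M) (haux : Fermat.Agent.S35.G.HasAux M q)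
  (A : ValuationSubring Kbar) (hA : A.LiesOverPrime q)

include hq hqM haux hA

theorem hasSlopeZeroGen_zero_h34 : HasSlopeZeroGen m q M A 0 := by
  have hE : GoodField A (inertiaField A) :=
    Fermat.Agent.Ribet.H868.goodField_inertiaField A q hq hA
  have hS : Mod.Setting A (inertiaField A) M q ((q : ℕ) : Mod.RE A (inertiaField A)) :=
    Fermat.Agent.Ribet.H868.setting_inertiaField A q M hq hqM (NeZero.ne M) hA
  haveI : IsDiscreteValuationRing ↥(Mod.RE A (inertiaField A)) := hE.dvr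
  obtain ⟨hC, ⟨c⟩⟩ := exists_chart_fin_h34 A (inertiaField A) M q hq hqM haux hE _ hS
  obtain ⟨v₁, v₂, hv₁, hv₂⟩ := Fermat.Agent.Ribet.H868.exists_valAt_chart (E := inertiaField A)
    ((q : ℕ) : Mod.RE A (inertiaField A)) (Mod.xE (inertiaField A) M q)
    (Mod.chartAlg A (inertiaField A) (M * q) (Mod.xE (inertiaField A) M q)) hC c
    (1 : Mod.FE (inertiaField A) (M * q)) one_ne_zero
  have h1 : KummerSlopeAt q M m A (inertiaField A) ((q : ℕ) : Mod.RE A (inertiaField A)) c 0 1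
      (v₁ - v₂) := by
    refine ⟨one_ne_zero, ?_, ?_, v₁, v₂, hv₁, hv₂, rfl⟩
    · rw [map_one]
      exact isKummerGen_one
    · intro V hV hEV
      exact ⟨1, 1, one_ne_zero, V.one_mem, by rw [inv_one]; exact V.one_mem, by simp⟩
  have h2 := h1.mul_inv_h34 hE hC h1
  rw [sub_self, sub_self] at h2
  exact (hasSlopeZeroGen_iff_chart_h34 q M m A c 0).2 ⟨_, 0, h2, dvd_zero _⟩

theorem hasSlopeZeroGen_sub_h34 {x x' : JZero (q * M)} (h : HasSlopeZeroGen m q M A x)
    (h' : HasSlopeZeroGen m q M A x') : HasSlopeZeroGen m q M A (x - x') := by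
  have hE : GoodField A (inertiaField A) :=
    Fermat.Agent.Ribet.H868.goodField_inertiaField A q hq hA
  have hS : Mod.Setting A (inertiaField A) M q ((q : ℕ) : Mod.RE A (inertiaField A)) :=
    Fermat.Agent.Ribet.H868.setting_inertiaField A q M hq hqM (NeZero.ne M) hA
  obtain ⟨hC, ⟨c⟩⟩ := exists_chart_fin_h34 A (inertiaField A) M q hq hqM haux hE _ hS
  obtain ⟨y, e, hy, hd⟩ := (hasSlopeZeroGen_iff_chart_h34 q M m A c x).1 h
  obtain ⟨y', e', hy', hd'⟩ := (hasSlopeZeroGen_iff_chart_h34 q M m A c x').1 h'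
  exact (hasSlopeZeroGen_iff_chart_h34 q M m A c (x - x')).2
    ⟨_, e - e', hy.mul_inv_h34 hE hC hy', dvd_sub hd hd'⟩

theorem hasSlopeZeroGen_neg_h34 {x : JZero (q * M)} (h : HasSlopeZeroGen m q M A x) :
    HasSlopeZeroGen m q M A (-x) := by
  have := hasSlopeZeroGen_sub_h34 q M m hq hqM haux A hA
    (hasSlopeZeroGen_zero_h34 q M m hq hqM haux A hA) h
  rwa [zero_sub] at this

theorem hasSlopeZeroGen_add_h34 {x x' : JZero (q * M)} (h : HasSlopeZeroGen m q M A x)
    (h' : HasSlopeZeroGen m q M A x') : HasSlopeZeroGen m q M A (x + x') := by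
  have := hasSlopeZeroGen_sub_h34 q M m hq hqM haux A hA h
    (hasSlopeZeroGen_neg_h34 q M m hq hqM haux A hA h')
  rwa [sub_neg_eq_add] at this

/-- **The subgroup `F_m` of the E-slope-zero classes** of `J₀(q M)`. -/
def slopeZeroPart_h34 : AddSubgroup (JZero (q * M)) where
  carrier := {x | HasSlopeZeroGen m q M A x}
  zero_mem' := hasSlopeZeroGen_zero_h34 q M m hq hqM haux A hA
  add_mem' := fun h h' => hasSlopeZeroGen_add_h34 q M m hq hqM haux A hA h h'
  neg_mem' := fun h => hasSlopeZeroGen_neg_h34 q M m hq hqM haux A hA h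

theorem mem_slopeZeroPart_h34 (x : JZero (q * M)) :
    x ∈ slopeZeroPart_h34 q M m hq hqM haux A hA ↔ HasSlopeZeroGen m q M A x :=
  Iff.rfl

end Group

/-! ## Torsion and compatibility of the exponents -/

/-- A class with a Kummer generator of exponent `m` is killed by `m`. -/
theorem nsmul_eq_zero_of_isKummerGen_h34 {N : ℕ} [NeZero N] {f : FF N} {x : JZero N}
    (h : IsKummerGen N m f x) : m • x = 0 := by
  obtain ⟨hf0, D, rfl, hD⟩ := h
  have e : m • (Pic0.mk D : JZero N) = Pic0.mk (m • D) := rfl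
  rw [e]
  show (QuotientAddGroup.mk (m • D) : Pic0 Kbar (FF N)) = 0
  refine (QuotientAddGroup.eq_zero_iff (m • D)).mpr ?_
  rw [AddSubgroup.mem_addSubgroupOf]
  refine ⟨f, hf0, fun Q => ?_⟩
  rw [hD Q]
  simp

theorem nsmul_eq_zero_of_hasSlopeZeroGen_h34 (A : ValuationSubring Kbar) {x : JZero (q * M)}
    (h : HasSlopeZeroGen m q M A x) : m • x = 0 := by
  obtain ⟨g, cf, v₁, v₂, hg, hdiv, hK, hv₁, hv₂, hd⟩ := h
  exact nsmul_eq_zero_of_isKummerGen_h34 m hK

/-- A Kummer generator of `x` of exponent `d k` is a Kummer generator of `d • x` of exponent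
`k`. -/
theorem isKummerGen_nsmul_of_mul_h34 {N : ℕ} [NeZero N] {d k : ℕ} {f : FF N} {x : JZero N}
    (h : IsKummerGen N (d * k) f x) : IsKummerGen N k f (d • x) := by
  obtain ⟨hf0, D, rfl, hD⟩ := h
  refine ⟨hf0, d • D, rfl, fun v => ?_⟩
  rw [hD v]
  simp only [AddSubgroup.coe_nsmul, nsmul_eq_mul]
  push_cast
  show ((d : ℤ) * (k : ℤ)) * _ = (k : ℤ) * ((d • (D : Divisor Kbar (FF N))) v)
  rw [Finsupp.smul_apply, nsmul_eq_mul]
  ring

theorem divisibleDiv_of_mul_h34 {E F : Type*} [Field E] [Field F] [Algebra E F] {d k : ℕ}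
    {f : F} (h : DivisibleDiv E (d * k) f) : DivisibleDiv E k f := by
  intro V hV hE
  obtain ⟨g, u, hg, hu, hu', rfl⟩ := h V hV hE
  exact ⟨g ^ d, u, pow_ne_zero _ hg, hu, hu', by rw [← pow_mul]⟩

/-- **COMPAT (`hFc`)**: `x ∈ F_{d k} ⟹ d • x ∈ F_k`. -/
theorem hasSlopeZeroGen_nsmul_of_mul_h34 (A : ValuationSubring Kbar) {d k : ℕ}
    {x : JZero (q * M)} (h : HasSlopeZeroGen (d * k) q M A x) :
    HasSlopeZeroGen k q M A (d • x) := by
  obtain ⟨g, cf, v₁, v₂, hg, hdiv, hK, hv₁, hv₂, hd⟩ := h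
  refine ⟨g, cf, v₁, v₂, hg, divisibleDiv_of_mul_h34 hdiv, isKummerGen_nsmul_of_mul_h34 hK,
    hv₁, hv₂, ?_⟩
  refine dvd_trans ?_ hd
  push_cast
  exact dvd_mul_left _ _

/-! ## FIN-OF-SLOPE: `F_m ⊆ finPartQ` -/

/-- **FIN-OF-SLOPE** in the vocabulary of helper862: an E-slope-zero class lies in `finSetQ`
(both reductions of a suitable Kummer generator lie in `k(X₀(M))` with `m`-divisible divisors). -/
theorem mem_finSetQ_of_hasSlopeZeroGen_h34 (hq : q.Prime) (hqM : ¬ q ∣ M)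
    (haux : Fermat.Agent.S35.G.HasAux M q) (hm : 0 < m)
    (A : ValuationSubring Kbar) (hA : A.LiesOverPrime q)
    (hTh1 : Fermat.Agent.S59.LoSqC.H862.Th1At A (inertiaField A) M q
      ((q : ℕ) : Mod.RE A (inertiaField A)))
    {x : JZero (q * M)} (h : HasSlopeZeroGen m q M A x) :
    x ∈ Fermat.Agent.Ribet.H158.WallQ.finSetQ m q M A := by
  have hE : GoodField A (inertiaField A) :=
    Fermat.Agent.Ribet.H868.goodField_inertiaField A q hq hA
  have hS : Mod.Setting A (inertiaField A) M q ((q : ℕ) : Mod.RE A (inertiaField A)) :=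
    Fermat.Agent.Ribet.H868.setting_inertiaField A q M hq hqM (NeZero.ne M) hA
  obtain ⟨c, y, e, hy, hd⟩ := (hasSlopeZeroGen_iff_h34 q M m A x).1 h
  exact mem_finSetQ_of_kummerSlope_h34 q M m hq hqM haux hm A hA (inertiaField A) hE _ hS
    (nodeRegAt_of_th1At_h34 q M A _ _ hTh1) c x y e hy hd

theorem slopeZeroPart_le_finPartQ_h34 (hq : q.Prime) (hqM : ¬ q ∣ M)
    (haux : Fermat.Agent.S35.G.HasAux M q) (hm : 0 < m)
    (A : ValuationSubring Kbar) (hA : A.LiesOverPrime q)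
    (hTh1 : Fermat.Agent.S59.LoSqC.H862.Th1At A (inertiaField A) M q
      ((q : ℕ) : Mod.RE A (inertiaField A))) :
    slopeZeroPart_h34 q M m hq hqM haux A hA ≤ Fermat.Agent.Ribet.H158.WallQ.finPartQ m q M A :=
  fun x hx => AddSubgroup.subset_closure
    (mem_finSetQ_of_hasSlopeZeroGen_h34 q M m hq hqM haux hm A hA hTh1 hx)

/-- NODE-REL, card form, at `F = slopeZeroPart_h34`. -/
theorem nodeRel_card_slopeZeroPart_h34 (hq : q.Prime) (hqM : ¬ q ∣ M)
    (haux : Fermat.Agent.S35.G.HasAux M q) (hm : 0 < m)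
    (A : ValuationSubring Kbar) (hA : A.LiesOverPrime q)
    (hTh1 : Fermat.Agent.S59.LoSqC.H862.Th1At A (inertiaField A) M q
      ((q : ℕ) : Mod.RE A (inertiaField A)))
    (I : AddSubgroup (JZero (q * M))) (hI : ∀ x ∈ I, m • x = 0)
    (hfix : ∀ x ∈ I, ∀ σ ∈ A.inertiaSubgroupIn ℚ, σ • x = x) :
    Nat.card I ≤ ((q - 1) * dedekindPsi M) *
      Nat.card ↥(slopeZeroPart_h34 q M m hq hqM haux A hA ⊓ I) :=
  Fermat.Agent.S59.LoSqC.H862.nodeRel_card_th1 m q M hm hq hqM haux A hA hTh1 _ I hI hfix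
    (fun z _ hz => hz)

end Fermat.Agent.S59.LoSqC.H34

end
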